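import Mathlib

/-!
# The subalgebra of Berlekamp

Modulo a product of distinct monic irreducibles the fixed points of `h ↦ h ^ q` are, by the Chinese
remainder theorem, the choices of a constant at each factor.
-/

set_option autoImplicit false

noncomputable section

namespace FA.Berlekamp

open Polynomial Finset

variable {K : Type*} [Field K] [Fintype K]

/-- The residues fixed by raising to the cardinality of the field. -/
def berlekampAlgebra (f : K[X]) : Subalgebra K (AdjoinRoot f) :=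
  AlgHom.equalizer (FiniteField.frobeniusAlgHom K (AdjoinRoot f)) (AlgHom.id K (AdjoinRoot f))

theorem mem_berlekampAlgebra {f : K[X]} (x : AdjoinRoot f) :
    x ∈ berlekampAlgebra f ↔ x ^ Fintype.card K = x := Iff.rfl

theorem mk_mem_iff {f h : K[X]} :
    AdjoinRoot.mk f h ∈ berlekampAlgebra f ↔ f ∣ h ^ Fintype.card K - h := by
  rw [mem_berlekampAlgebra, ← map_pow, AdjoinRoot.mk_eq_mk]

theorem pow_sub_self_eq (h : K[X]) : h ^ Fintype.card K - h = ∏ c : K, (h - C c) := by
  classical
  have hq : 1 < Fintype.card K := Fintype.one_lt_card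
  have hm : (X ^ Fintype.card K - X : K[X]).Monic :=
    monic_X_pow_sub (by rw [degree_X]; exact_mod_cast hq)
  have hp := prod_multiset_X_sub_C_of_monic_of_roots_card_eq hm (by
    rw [FiniteField.roots_X_pow_card_sub_X, FiniteField.X_pow_card_sub_X_natDegree_eq K hq]
    rfl)
  rw [FiniteField.roots_X_pow_card_sub_X] at hp
  have hp' : (∏ c : K, (X - C c)) = X ^ Fintype.card K - X := hp
  have h1 := congrArg (fun P : K[X] => P.comp h) hp'
  simpa [Polynomial.prod_comp] using h1.symm

variable {S : Finset K[X]} (hirr : ∀ p ∈ S, Irreducible p) (hmon : ∀ p ∈ S, p.Monic)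

omit [Fintype K] in
include hirr hmon in
theorem isCoprime_of_mem {p r : K[X]} (hp : p ∈ S) (hr : r ∈ S) (h : p ≠ r) : IsCoprime p r :=
  (hirr p hp).coprime_iff_not_dvd.2 fun hd =>
    h (eq_of_monic_of_associated (hmon p hp) (hmon r hr)
      ((hirr p hp).associated_of_dvd (hirr r hr) hd))

include hirr in
theorem exists_const {h : K[X]} (hf : ∏ p ∈ S, p ∣ h ^ Fintype.card K - h) {p : K[X]} (hp : p ∈ S) :
    ∃ c : K, p ∣ h - C c := by
  have hd := (dvd_prod_of_mem id hp).trans hf
  rw [pow_sub_self_eq] at hd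
  obtain ⟨c, -, hc⟩ := ((hirr p hp).prime.dvd_finsetProd_iff _).1 hd
  exact ⟨c, hc⟩

omit [Fintype K] in
include hirr in
theorem const_unique {h p : K[X]} (hp : p ∈ S) {c c' : K} (hc : p ∣ h - C c) (hc' : p ∣ h - C c') :
    c = c' := by
  by_contra hne
  have hd : p ∣ C (c' - c) := by
    have := dvd_sub hc hc'
    rwa [sub_sub_sub_cancel_left, ← C_sub] at this
  exact (hirr p hp).not_isUnit (isUnit_of_dvd_unit hd
    (isUnit_C.2 (sub_ne_zero.2 (Ne.symm hne)).isUnit))

omit [Fintype K] in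
include hirr hmon in
theorem prod_dvd {T : Finset K[X]} (hT : T ⊆ S) {h : K[X]} (hd : ∀ p ∈ T, p ∣ h) :
    ∏ p ∈ T, p ∣ h :=
  Finset.prod_dvd_of_coprime
    (fun _ hp _ hr hne => isCoprime_of_mem hirr hmon (hT hp) (hT hr) hne) hd

omit [Fintype K] in
include hirr hmon in
theorem exists_idempotent {p : K[X]} (hp : p ∈ S) :
    ∃ e : K[X], p ∣ e - 1 ∧ ∀ r ∈ S, r ≠ p → r ∣ e := by
  classical
  obtain ⟨u, v, huv⟩ : IsCoprime p (∏ r ∈ S.erase p, r) := IsCoprime.prod_right fun r hr =>
    isCoprime_of_mem hirr hmon hp (mem_of_mem_erase hr) (ne_of_mem_erase hr).symm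
  refine ⟨v * ∏ r ∈ S.erase p, r, ⟨-u, by linear_combination huv⟩,
    fun r hr hne => dvd_mul_of_dvd_right (dvd_prod_of_mem id (mem_erase.2 ⟨hne, hr⟩)) v⟩

include hirr hmon in
/-- The subalgebra is a power of the field. -/
theorem exists_linearEquiv {f : K[X]} (hf : f = ∏ p ∈ S, p) :
    Nonempty ((S → K) ≃ₗ[K] berlekampAlgebra f) := by
  classical
  choose e he₁ he₂ using fun p : S => exists_idempotent hirr hmon p.2
  set h : (S → K) → K[X] := fun c => ∑ p, C (c p) * e p with hh
  have hmod : ∀ c (p : S), (p : K[X]) ∣ h c - C (c p) := by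
    intro c p
    have hsplit : h c - C (c p) = C (c p) * (e p - 1) + ∑ r ∈ univ.erase p, C (c r) * e r := by
      rw [hh]
      simp only
      rw [← add_sum_erase _ _ (mem_univ p)]
      ring
    rw [hsplit]
    exact dvd_add (dvd_mul_of_dvd_right (he₁ p) _) (dvd_sum fun r hr => dvd_mul_of_dvd_right
      (he₂ r p p.2 (fun hpr => ne_of_mem_erase hr (Subtype.ext hpr.symm))) _)
  have hmem : ∀ c, AdjoinRoot.mk f (h c) ∈ berlekampAlgebra f := fun c => by
    rw [mk_mem_iff, hf]
    refine prod_dvd hirr hmon subset_rfl fun p hp => ?_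
    rw [pow_sub_self_eq]
    exact (hmod c ⟨p, hp⟩).trans (dvd_prod_of_mem (fun a => h c - C a) (mem_univ _))
  let L : (S → K) →ₗ[K] berlekampAlgebra f :=
    { toFun := fun c => ⟨AdjoinRoot.mk f (h c), hmem c⟩
      map_add' := fun c d => Subtype.ext (by
        simp [hh, add_mul, Finset.sum_add_distrib])
      map_smul' := fun a c => Subtype.ext (by
        simp [hh, Finset.mul_sum, Algebra.smul_def, mul_assoc]) }
  refine ⟨LinearEquiv.ofBijective L ⟨fun c d hcd => funext fun p => ?_, fun x => ?_⟩⟩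
  · have h1 : f ∣ h c - h d := AdjoinRoot.mk_eq_mk.1 (congrArg Subtype.val hcd)
    have h2 : (p : K[X]) ∣ h d - C (c p) := by
      have := dvd_sub (hmod c p) ((dvd_prod_of_mem id p.2).trans (hf ▸ h1))
      rwa [sub_sub_sub_cancel_left] at this
    exact const_unique hirr p.2 h2 (hmod d p)
  · obtain ⟨g, hg⟩ := AdjoinRoot.mk_surjective x.1
    have hg' : ∏ p ∈ S, p ∣ g ^ Fintype.card K - g := by
      rw [← hf, ← mk_mem_iff, hg]
      exact x.2
    choose c hc using fun p : S => exists_const hirr hg' p.2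
    refine ⟨c, Subtype.ext ?_⟩
    change AdjoinRoot.mk f (h c) = x.1
    rw [← hg, AdjoinRoot.mk_eq_mk, hf]
    refine prod_dvd hirr hmon subset_rfl fun p hp => ?_
    have := dvd_sub (hmod c ⟨p, hp⟩) (hc ⟨p, hp⟩)
    rwa [sub_sub_sub_cancel_right] at this

omit [Fintype K] in
include hirr hmon in
/-- The greatest common divisor with `h - c`. -/
theorem normalize_gcd_eq [DecidableEq K] {f : K[X]} (hf : f = ∏ p ∈ S, p) (h : K[X])
    [DecidablePred fun p : K[X] => p ∣ h] :
    normalize (EuclideanDomain.gcd f h) = ∏ p ∈ S.filter (fun p => p ∣ h), p := by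
  set T := S.filter fun p => p ∣ h
  have hTS : T ⊆ S := filter_subset _ _
  rw [← (monic_prod_of_monic T (fun p => p) fun p hp => hmon p (hTS hp)).normalize_eq_self]
  refine normalize_eq_normalize ?_ (EuclideanDomain.dvd_gcd ?_ ?_)
  · have hg : EuclideanDomain.gcd f h ∣ (∏ p ∈ S \ T, p) * ∏ p ∈ T, p :=
      (EuclideanDomain.gcd_dvd_left f h).trans (hf.trans (prod_sdiff hTS).symm).dvd
    refine IsCoprime.dvd_of_dvd_mul_left ?_ hg
    refine IsCoprime.prod_right fun p hp => ?_
    obtain ⟨hpS, hpT⟩ := Finset.mem_sdiff.1 hp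
    exact ((hirr p hpS).coprime_iff_not_dvd.2 fun hd =>
      hpT (mem_filter.2 ⟨hpS, hd.trans (EuclideanDomain.gcd_dvd_right f h)⟩)).symm
  · rw [hf, ← prod_sdiff hTS]
    exact dvd_mul_left _ _
  · exact prod_dvd hirr hmon hTS fun p hp => (mem_filter.1 hp).2

include hirr hmon in
/-- A fixed residue splits `f`. -/
theorem prod_gcd [DecidableEq K] {f : K[X]} (hf : f = ∏ p ∈ S, p) {h : K[X]}
    (hh : f ∣ h ^ Fintype.card K - h) :
    ∏ c : K, normalize (EuclideanDomain.gcd f (h - C c)) = f := by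
  classical
  have hex : ∀ p : K[X], ∃ c : K, p ∈ S → p ∣ h - C c := fun p => by
    by_cases hp : p ∈ S
    · obtain ⟨c, hc⟩ := exists_const hirr (hf ▸ hh) hp
      exact ⟨c, fun _ => hc⟩
    · exact ⟨0, fun h => absurd h hp⟩
  choose g hg using hex
  rw [Finset.prod_congr rfl fun c _ => normalize_gcd_eq hirr hmon hf (h - C c)]
  calc ∏ c : K, ∏ p ∈ S.filter (fun p => p ∣ h - C c), p
      = ∏ c : K, ∏ p ∈ S.filter (fun p => g p = c), p := by
        refine prod_congr rfl fun c _ => prod_congr (filter_congr fun p hp => ?_) fun _ _ => rfl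
        exact ⟨fun hd => const_unique hirr hp (hg p hp) hd, fun he => he ▸ hg p hp⟩
    _ = f := by rw [hf]; exact prod_fiberwise S g _

include hirr hmon in
/-- Two factors are separated. -/
theorem exists_separating {f : K[X]} (hf : f = ∏ p ∈ S, p) {p r : K[X]} (hp : p ∈ S) (hr : r ∈ S)
    (hne : p ≠ r) : ∃ h : K[X], f ∣ h ^ Fintype.card K - h ∧ p ∣ h ∧ ¬r ∣ h := by
  classical
  obtain ⟨e, he₁, he₂⟩ := exists_idempotent hirr hmon hr
  refine ⟨e, ?_, he₂ p hp hne, fun hd => (hirr r hr).not_isUnit (isUnit_of_dvd_one ?_)⟩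
  · rw [hf]
    refine prod_dvd hirr hmon subset_rfl fun s hs => ?_
    rw [pow_sub_self_eq]
    by_cases hsr : s = r
    · subst hsr
      refine dvd_trans ?_ (dvd_prod_of_mem (fun a => e - C a) (mem_univ 1))
      simpa using he₁
    · refine dvd_trans ?_ (dvd_prod_of_mem (fun a => e - C a) (mem_univ 0))
      simpa using he₂ s hs hsr
  · have := dvd_sub hd he₁
    rwa [sub_sub_cancel] at this

omit [Fintype K] in
theorem exists_factor_set {f : K[X]} (hm : f.Monic) (hs : Squarefree f) :
    ∃ S : Finset K[X], (∀ p ∈ S, Irreducible p) ∧ (∀ p ∈ S, p.Monic) ∧ f = ∏ p ∈ S, p ∧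
      ∀ p, p ∈ S ↔ p.Monic ∧ Irreducible p ∧ p ∣ f := by
  classical
  open UniqueFactorizationMonoid in
  refine ⟨(normalizedFactors f).toFinset, fun p hp =>
    irreducible_of_normalized_factor p (Multiset.mem_toFinset.1 hp), fun p hp => ?_, ?_,
    fun p => ?_⟩
  · have hn := UniqueFactorizationMonoid.normalize_normalized_factor p (Multiset.mem_toFinset.1 hp)
    have hp0 := (UniqueFactorizationMonoid.irreducible_of_normalized_factor p
      (Multiset.mem_toFinset.1 hp)).ne_zero
    exact hn ▸ monic_normalize hp0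
  · have hnd := (UniqueFactorizationMonoid.squarefree_iff_nodup_normalizedFactors hm.ne_zero).1 hs
    rw [Finset.prod_eq_multiset_prod, Multiset.toFinset_val, hnd.dedup, Multiset.map_id',
      UniqueFactorizationMonoid.prod_normalizedFactors_eq hm.ne_zero, hm.normalize_eq_self]
  · rw [Multiset.mem_toFinset, UniqueFactorizationMonoid.mem_normalizedFactors_iff' hm.ne_zero]
    constructor
    · rintro ⟨h1, h2, h3⟩
      exact ⟨h2 ▸ monic_normalize h1.ne_zero, h1, h3⟩
    · rintro ⟨h1, h2, h3⟩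
      exact ⟨h2, h1.normalize_eq_self, h3⟩

end FA.Berlekamp
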